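/-
P-S13 (S13), WP8: bridges between the inputs of `hasCofixedLine_of_inputs` and the natural
shapes of the work packages: field of definition of the torsion points, rational points.
-/
import Mathlib
import Fermat.Prelude.Def_FLTPrelim_GaloisRep
import Fermat.Prelude.Def_FLTPrelim_Ramification

set_option autoImplicit false
set_option linter.style.haveILetI false
set_option linter.unusedSectionVars false

open WeierstrassCurve WeierstrassCurve.Affine WeierstrassCurve.Affine.Point

namespace Fermat.Agent.H25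

/-- `ℚ̄ / ℚ` is Galois (for the algebra instance found by instance resolution). -/
theorem isGalois_rat_algebraicClosure : IsGalois ℚ (AlgebraicClosure ℚ) :=
  (inferInstance : @IsGalois ℚ _ (AlgebraicClosure ℚ) _ (AlgebraicClosure.instAlgebra ℚ))

/-- `ℚ̄ / ℚ` is algebraic (for the algebra instance found by instance resolution). -/
theorem isAlgebraic_rat_algebraicClosure : Algebra.IsAlgebraic ℚ (AlgebraicClosure ℚ) :=
  AlgebraicClosure.isAlgebraic ℚ

section coords

variable (W : WeierstrassCurve ℚ)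

/-- The set of coordinates of a point. -/
def coordsOf : (W⁄(AlgebraicClosure ℚ)).Point → Set (AlgebraicClosure ℚ)
  | .zero => ∅
  | .some x y _ => {x, y}

lemma coordsOf_finite (P : (W⁄(AlgebraicClosure ℚ)).Point) : (coordsOf W P).Finite := by
  cases P with
  | zero => exact Set.finite_empty
  | some x y h => exact Set.toFinite {x, y}

lemma galois_smul_some (σ : AlgebraicClosure ℚ ≃ₐ[ℚ] AlgebraicClosure ℚ)
    {x y : AlgebraicClosure ℚ} (h : (W⁄(AlgebraicClosure ℚ)).Nonsingular x y) :
    ∃ h' : (W⁄(AlgebraicClosure ℚ)).Nonsingular (σ x) (σ y),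
      σ • (Point.some x y h : (W⁄(AlgebraicClosure ℚ)).Point) = Point.some (σ x) (σ y) h' :=
  ⟨_, rfl⟩

lemma galois_smul_zero (σ : AlgebraicClosure ℚ ≃ₐ[ℚ] AlgebraicClosure ℚ) :
    σ • (0 : (W⁄(AlgebraicClosure ℚ)).Point) = 0 := rfl

/-- An automorphism fixing the coordinates of a point fixes the point. -/
lemma smul_eq_self_of_coords (σ : AlgebraicClosure ℚ ≃ₐ[ℚ] AlgebraicClosure ℚ)
    (P : (W⁄(AlgebraicClosure ℚ)).Point) (h : ∀ c ∈ coordsOf W P, σ c = c) : σ • P = P := by
  cases P with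
  | zero => rfl
  | some x y hxy =>
    obtain ⟨h', e⟩ := galois_smul_some W σ hxy
    rw [e]
    have hx : σ x = x := h x (by simp [coordsOf])
    have hy : σ y = y := h y (by simp [coordsOf])
    simp only [hx, hy]

/-- An automorphism fixing a point fixes its coordinates. -/
lemma coords_of_smul_eq_self (σ : AlgebraicClosure ℚ ≃ₐ[ℚ] AlgebraicClosure ℚ)
    {x y : AlgebraicClosure ℚ} (hxy : (W⁄(AlgebraicClosure ℚ)).Nonsingular x y)
    (h : σ • (Point.some x y hxy : (W⁄(AlgebraicClosure ℚ)).Point) = Point.some x y hxy) :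
    σ x = x ∧ σ y = y := by
  obtain ⟨h', e⟩ := galois_smul_some W σ hxy
  rw [e] at h
  simpa using h

end coords

section fieldOfDefinition

variable (W : WeierstrassCurve ℚ) (p : ℕ)

/-- The set of all coordinates of `p`-torsion points. -/
def torsionCoords : Set (AlgebraicClosure ℚ) :=
  ⋃ P : Submodule.torsionBy ℤ (W⁄(AlgebraicClosure ℚ)).Point p, coordsOf W P.1

lemma torsionCoords_finite
    [Finite (Submodule.torsionBy ℤ (W⁄(AlgebraicClosure ℚ)).Point p)] :
    (torsionCoords W p).Finite :=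
  Set.finite_iUnion fun P => coordsOf_finite W P.1

/-- The field of definition of the `p`-torsion points. -/
noncomputable def torsionField : IntermediateField ℚ (AlgebraicClosure ℚ) :=
  IntermediateField.adjoin ℚ (torsionCoords W p)

lemma torsionField_finiteDimensional
    [Finite (Submodule.torsionBy ℤ (W⁄(AlgebraicClosure ℚ)).Point p)] :
    FiniteDimensional ℚ (torsionField W p) := by
  haveI : Finite (torsionCoords W p) := (torsionCoords_finite W p).to_subtype
  haveI := isAlgebraic_rat_algebraicClosure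
  exact IntermediateField.finiteDimensional_adjoin
    (fun x _ => (Algebra.IsAlgebraic.isAlgebraic x).isIntegral)

/-- Automorphisms fixing the field of definition act trivially on the torsion points. -/
lemma smul_eq_self_of_mem_fixingSubgroup
    (σ : AlgebraicClosure ℚ ≃ₐ[ℚ] AlgebraicClosure ℚ)
    (hσ : σ ∈ (torsionField W p).fixingSubgroup)
    (x : Submodule.torsionBy ℤ (W⁄(AlgebraicClosure ℚ)).Point p) : σ • x = x := by
  apply Subtype.ext
  show σ • (x : (W⁄(AlgebraicClosure ℚ)).Point) = x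
  apply smul_eq_self_of_coords
  intro c hc
  rw [IntermediateField.mem_fixingSubgroup_iff] at hσ
  apply hσ
  apply IntermediateField.subset_adjoin
  exact Set.mem_iUnion.mpr ⟨x, hc⟩

/-- **Bridge for WP7**: the global lemma in "finite level" form implies the form consumed by
`hasCofixedLine_of_inputs`. -/
theorem hglob_of_finiteLevel
    [Finite (Submodule.torsionBy ℤ (W⁄(AlgebraicClosure ℚ)).Point p)]
    (hG : ∀ (H : Subgroup (AlgebraicClosure ℚ ≃ₐ[ℚ] AlgebraicClosure ℚ)), H.Normal →
      ∀ (L : IntermediateField ℚ (AlgebraicClosure ℚ)), FiniteDimensional ℚ L →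
      L.fixingSubgroup ≤ H → H ≠ ⊤ →
      ∃ ℓ : ℕ, ℓ.Prime ∧ ∀ A : ValuationSubring (AlgebraicClosure ℚ),
        A.LiesOverPrime ℓ → ∃ σ ∈ A.inertiaSubgroupIn ℚ, σ ∉ H) :
    ∀ H : Subgroup (AlgebraicClosure ℚ ≃ₐ[ℚ] AlgebraicClosure ℚ), H.Normal →
      (∀ σ : AlgebraicClosure ℚ ≃ₐ[ℚ] AlgebraicClosure ℚ,
        (∀ x : Submodule.torsionBy ℤ (W⁄(AlgebraicClosure ℚ)).Point p, σ • x = x) → σ ∈ H) →
      H ≠ ⊤ → ∃ ℓ : ℕ, ℓ.Prime ∧ ∀ A : ValuationSubring (AlgebraicClosure ℚ),
        A.LiesOverPrime ℓ → ∃ σ ∈ A.inertiaSubgroupIn ℚ, σ ∉ H := by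
  intro H hn hH hne
  exact hG H hn (torsionField W p) (torsionField_finiteDimensional W p)
    (fun σ hσ => hH σ (smul_eq_self_of_mem_fixingSubgroup W p σ hσ)) hne

end fieldOfDefinition

section rational

variable (W : WeierstrassCurve ℚ) (p : ℕ)

/-- A point fixed by the whole Galois group has rational coordinates. -/
lemma exists_rat_of_fixed {x y : AlgebraicClosure ℚ}
    (hxy : (W⁄(AlgebraicClosure ℚ)).Nonsingular x y)
    (h : ∀ σ : AlgebraicClosure ℚ ≃ₐ[ℚ] AlgebraicClosure ℚ,
      σ • (Point.some x y hxy : (W⁄(AlgebraicClosure ℚ)).Point) = Point.some x y hxy) :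
    ∃ a b : ℚ, x = algebraMap ℚ (AlgebraicClosure ℚ) a ∧
      y = algebraMap ℚ (AlgebraicClosure ℚ) b := by
  haveI := isGalois_rat_algebraicClosure
  have hx : x ∈ Set.range (algebraMap ℚ (AlgebraicClosure ℚ)) :=
    (InfiniteGalois.mem_range_algebraMap_iff_fixed x).mpr
      fun σ => (coords_of_smul_eq_self W σ hxy (h σ)).1
  have hy : y ∈ Set.range (algebraMap ℚ (AlgebraicClosure ℚ)) :=
    (InfiniteGalois.mem_range_algebraMap_iff_fixed y).mpr
      fun σ => (coords_of_smul_eq_self W σ hxy (h σ)).2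
  obtain ⟨a, ha⟩ := hx
  obtain ⟨b, hb⟩ := hy
  exact ⟨a, b, ha.symm, hb.symm⟩

/-- **Bridge for WP5 (4)**, coordinate form: if no nonsingular point with rational coordinates
is killed by `p`, then no nonzero `p`-torsion point is Galois-fixed. -/
theorem hrat_of_coords
    (h : ∀ (a b : ℚ)
      (hab : (W⁄(AlgebraicClosure ℚ)).Nonsingular (algebraMap ℚ (AlgebraicClosure ℚ) a)
        (algebraMap ℚ (AlgebraicClosure ℚ) b)),
      (p : ℤ) • (Point.some _ _ hab : (W⁄(AlgebraicClosure ℚ)).Point) ≠ 0) :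
    ∀ x : Submodule.torsionBy ℤ (W⁄(AlgebraicClosure ℚ)).Point p,
      (∀ σ : AlgebraicClosure ℚ ≃ₐ[ℚ] AlgebraicClosure ℚ, σ • x = x) → x = 0 := by
  rintro ⟨P, hP⟩ hfix
  apply Subtype.ext
  show P = 0
  have hfix' : ∀ σ : AlgebraicClosure ℚ ≃ₐ[ℚ] AlgebraicClosure ℚ, σ • P = P := fun σ =>
    congrArg Subtype.val (hfix σ)
  rw [Submodule.mem_torsionBy_iff] at hP
  cases P with
  | zero => rfl
  | some x y hxy =>
    exfalso
    obtain ⟨a, b, rfl, rfl⟩ := exists_rat_of_fixed W hxy hfix'
    exact h a b hxy hP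

/-- **Bridge for WP5 (4)**, point form: if `W(ℚ)` has no nonzero point killed by `p`, then no
nonzero `p`-torsion point over `ℚ̄` is Galois-fixed. -/
theorem hrat_of_points
    (h : ∀ P : (W⁄ℚ).Point, (p : ℤ) • P = 0 → P = 0) :
    ∀ x : Submodule.torsionBy ℤ (W⁄(AlgebraicClosure ℚ)).Point p,
      (∀ σ : AlgebraicClosure ℚ ≃ₐ[ℚ] AlgebraicClosure ℚ, σ • x = x) → x = 0 := by
  apply hrat_of_coords
  intro a b hab hp
  have hab' : (W⁄ℚ).Nonsingular a b :=
    (WeierstrassCurve.Affine.baseChange_nonsingular (W := W)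
      (f := Algebra.ofId ℚ (AlgebraicClosure ℚ))
      (Algebra.ofId ℚ (AlgebraicClosure ℚ)).injective a b).mp hab
  have hmap : Point.map (W' := W) (Algebra.ofId ℚ (AlgebraicClosure ℚ))
      (Point.some a b hab') = Point.some _ _ hab := rfl
  have h1 : Point.map (W' := W) (Algebra.ofId ℚ (AlgebraicClosure ℚ))
      ((p : ℤ) • Point.some a b hab') = 0 := by
    rw [map_zsmul, hmap, hp]
  have h2 : (p : ℤ) • (Point.some a b hab' : (W⁄ℚ).Point) = 0 := by
    apply Point.map_injective (W' := W) (f := Algebra.ofId ℚ (AlgebraicClosure ℚ))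
    rw [h1, Point.map_zero]
  have := h _ h2
  exact Point.some_ne_zero _ this

end rational

end Fermat.Agent.H25
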