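/-
P-S13 (S13), WP8: abstract Serre argument.  A 2-dimensional `𝔽_p`-representation `V` of a
group `G` with a stable line `N₀`; local unipotence away from `p`, a proper "connected part"
at `p`, a global Minkowski-type lemma and absence of nonzero fixed vectors imply that `G`
acts trivially on `V ⧸ N₀`.
-/
import Mathlib

set_option autoImplicit false
set_option linter.style.haveILetI false
set_option linter.unusedSectionVars false

namespace Fermat.Agent.H25

section linalg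

variable {p : ℕ} [Fact p.Prime] {V : Type*} [AddCommGroup V] [Module (ZMod p) V]

/-- A proper nonzero subspace of a space with at most `p²` elements is a line in a plane. -/
lemma finrank_line_plane [Finite V] (hcard : Nat.card V ≤ p ^ 2) (N₀ : Submodule (ZMod p) V)
    (hbot : N₀ ≠ ⊥) (htop : N₀ ≠ ⊤) :
    Module.finrank (ZMod p) N₀ = 1 ∧ Module.finrank (ZMod p) V = 2 := by
  haveI : Module.Finite (ZMod p) V := Module.Finite.of_finite
  have h1 : Nat.card V = p ^ Module.finrank (ZMod p) V := by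
    rw [Module.natCard_eq_pow_finrank (K := ZMod p) (V := V), Nat.card_zmod]
  have h2 : Module.finrank (ZMod p) V ≤ 2 := by
    rw [h1] at hcard
    exact (Nat.pow_le_pow_iff_right (Fact.out : p.Prime).one_lt).mp hcard
  have h3 : Module.finrank (ZMod p) N₀ < Module.finrank (ZMod p) V :=
    Submodule.finrank_lt htop
  have h4 : 0 < Module.finrank (ZMod p) N₀ := by
    rw [Module.finrank_pos_iff]
    exact (Submodule.nontrivial_iff_ne_bot).mpr hbot
  omega

/-- Every nonzero vector of the line spans it. -/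
lemma span_eq_of_mem_line [Finite V] (hcard : Nat.card V ≤ p ^ 2) (N₀ : Submodule (ZMod p) V)
    (hbot : N₀ ≠ ⊥) (htop : N₀ ≠ ⊤) {v : V} (hv : v ∈ N₀) (hv0 : v ≠ 0) :
    Submodule.span (ZMod p) {v} = N₀ := by
  haveI : Module.Finite (ZMod p) V := Module.Finite.of_finite
  obtain ⟨h1, -⟩ := finrank_line_plane hcard N₀ hbot htop
  apply Submodule.eq_of_le_of_finrank_eq
  · rw [Submodule.span_le]
    intro x hx
    rw [Set.mem_singleton_iff] at hx
    rw [hx]; exact hv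
  · rw [h1, finrank_span_singleton hv0]

/-- A vector outside the line spans the plane together with the line. -/
lemma sup_span_eq_top [Finite V] (hcard : Nat.card V ≤ p ^ 2) (N₀ : Submodule (ZMod p) V)
    (hbot : N₀ ≠ ⊥) (htop : N₀ ≠ ⊤) {y : V} (hy : y ∉ N₀) :
    N₀ ⊔ Submodule.span (ZMod p) {y} = ⊤ := by
  haveI : Module.Finite (ZMod p) V := Module.Finite.of_finite
  obtain ⟨h1, h2⟩ := finrank_line_plane hcard N₀ hbot htop
  have hlt : N₀ < N₀ ⊔ Submodule.span (ZMod p) {y} := by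
    refine lt_of_le_of_ne le_sup_left ?_
    intro h
    apply hy
    rw [h]
    exact Submodule.mem_sup_right (Submodule.mem_span_singleton_self y)
  have h3 := Submodule.finrank_lt_finrank_of_lt hlt
  apply Submodule.eq_top_of_finrank_eq
  have h4 := Submodule.finrank_le (N₀ ⊔ Submodule.span (ZMod p) {y})
  omega

/-- A submodule containing the line and different from the plane is the line. -/
lemma eq_line_of_le [Finite V] (hcard : Nat.card V ≤ p ^ 2) (N₀ : Submodule (ZMod p) V)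
    (hbot : N₀ ≠ ⊥) (htop : N₀ ≠ ⊤) (T : Submodule (ZMod p) V) (hT : T ≠ ⊤) (hle : N₀ ≤ T) :
    T = N₀ := by
  apply le_antisymm _ hle
  intro y hy
  by_contra hyN
  apply hT
  rw [eq_top_iff, ← sup_span_eq_top hcard N₀ hbot htop hyN]
  refine sup_le hle ?_
  rw [Submodule.span_le]
  intro x hx
  rw [Set.mem_singleton_iff] at hx
  rw [hx]; exact hy

/-- A submodule meets the line trivially or contains it. -/
lemma inf_line_eq_bot_or_le [Finite V] (hcard : Nat.card V ≤ p ^ 2) (N₀ : Submodule (ZMod p) V)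
    (hbot : N₀ ≠ ⊥) (htop : N₀ ≠ ⊤) (T : Submodule (ZMod p) V) :
    T ⊓ N₀ = ⊥ ∨ N₀ ≤ T := by
  by_cases h : T ⊓ N₀ = ⊥
  · exact Or.inl h
  · right
    obtain ⟨v, hv, hv0⟩ := (Submodule.ne_bot_iff _).mp h
    rw [← span_eq_of_mem_line hcard N₀ hbot htop hv.2 hv0, Submodule.span_le]
    intro x hx
    rw [Set.mem_singleton_iff] at hx
    rw [hx]; exact hv.1

end linalg

section action

variable {p : ℕ} [Fact p.Prime] {V : Type*} [AddCommGroup V] [Module (ZMod p) V]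
  {G : Type*} [Group G] [DistribMulAction G V]

/-- The group action commutes with `ZMod p`-scalars. -/
lemma smul_zmod_smul (σ : G) (c : ZMod p) (x : V) : σ • (c • x) = c • (σ • x) :=
  ((DistribSMul.toAddMonoidHom V σ).toZModLinearMap p).map_smul c x

/-- A unipotent element stabilising the line acts trivially on the line. -/
lemma unipotent_fix_line [Finite V] (hcard : Nat.card V ≤ p ^ 2) (N₀ : Submodule (ZMod p) V)
    (hbot : N₀ ≠ ⊥) (htop : N₀ ≠ ⊤) (σ : G) (hσN : ∀ x ∈ N₀, σ • x ∈ N₀)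
    (hσ : ∀ x : V, σ • (σ • x - x) = σ • x - x) {x : V} (hx : x ∈ N₀) : σ • x = x := by
  by_contra hne
  have hy0 : σ • x - x ≠ 0 := fun h => hne (sub_eq_zero.mp h)
  have hyN : σ • x - x ∈ N₀ := N₀.sub_mem (hσN x hx) hx
  have hspan := span_eq_of_mem_line hcard N₀ hbot htop hyN hy0
  rw [← hspan] at hx
  obtain ⟨c, hc⟩ := Submodule.mem_span_singleton.mp hx
  apply hy0
  have h1 : σ • x - x = c • (σ • (σ • x - x) - (σ • x - x)) := by
    rw [smul_sub, ← smul_zmod_smul, hc]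
  rw [h1, hσ, sub_self, smul_zero]

/-- A unipotent element stabilising the line acts trivially on the quotient by the line. -/
lemma unipotent_sub_mem_line [Finite V] (hcard : Nat.card V ≤ p ^ 2)
    (N₀ : Submodule (ZMod p) V) (hbot : N₀ ≠ ⊥) (htop : N₀ ≠ ⊤) (σ : G)
    (hσN : ∀ x ∈ N₀, σ • x ∈ N₀) (hσ : ∀ x : V, σ • (σ • x - x) = σ • x - x) (x : V) :
    σ • x - x ∈ N₀ := by
  by_contra hyN
  have htop' := sup_span_eq_top hcard N₀ hbot htop hyN
  have hx : x ∈ N₀ ⊔ Submodule.span (ZMod p) {σ • x - x} := by rw [htop']; exact Submodule.mem_top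
  obtain ⟨n, hn, z, hz, hnz⟩ := Submodule.mem_sup.mp hx
  obtain ⟨c, hc⟩ := Submodule.mem_span_singleton.mp hz
  apply hyN
  have h1 : σ • x - x = (σ • n - n) + c • (σ • (σ • x - x) - (σ • x - x)) := by
    rw [smul_sub c, ← smul_zmod_smul, hc]
    rw [← hnz, smul_add]
    abel
  rw [h1, hσ, sub_self, smul_zero, add_zero,
    unipotent_fix_line hcard N₀ hbot htop σ hσN hσ hn, sub_self]
  exact N₀.zero_mem

/-- The kernel of the action on the line. -/
def fixLine (G : Type*) [Group G] [DistribMulAction G V] (N₀ : Submodule (ZMod p) V) :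
    Subgroup G where
  carrier := {σ | ∀ x ∈ N₀, σ • x = x}
  one_mem' := fun x _ => one_smul G x
  mul_mem' := by
    intro a b ha hb x hx
    rw [mul_smul, hb x hx, ha x hx]
  inv_mem' := by
    intro a ha x hx
    have := ha x hx
    rw [inv_smul_eq_iff]
    exact this.symm

/-- The kernel of the action on the quotient by the line (for a stable line). -/
def fixQuot (G : Type*) [Group G] [DistribMulAction G V] (N₀ : Submodule (ZMod p) V)
    (hstab : ∀ σ : G, ∀ x ∈ N₀, σ • x ∈ N₀) : Subgroup G where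
  carrier := {σ | ∀ x : V, σ • x - x ∈ N₀}
  one_mem' := fun x => by rw [one_smul, sub_self]; exact N₀.zero_mem
  mul_mem' := by
    intro a b ha hb x
    have h1 : (a * b) • x - x = a • (b • x - x) + (a • x - x) := by
      rw [mul_smul, smul_sub]; abel
    rw [h1]
    exact N₀.add_mem (hstab a _ (hb x)) (ha x)
  inv_mem' := by
    intro a ha x
    have h1 : a⁻¹ • x - x = - (a⁻¹ • (a • x - x)) := by
      rw [smul_sub, inv_smul_smul]; abel
    rw [h1]
    exact N₀.neg_mem (hstab a⁻¹ _ (ha x))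

lemma mem_fixLine {N₀ : Submodule (ZMod p) V} {σ : G} :
    σ ∈ fixLine G N₀ ↔ ∀ x ∈ N₀, σ • x = x := Iff.rfl

lemma mem_fixQuot {N₀ : Submodule (ZMod p) V} {hstab : ∀ σ : G, ∀ x ∈ N₀, σ • x ∈ N₀} {σ : G} :
    σ ∈ fixQuot G N₀ hstab ↔ ∀ x : V, σ • x - x ∈ N₀ := Iff.rfl

lemma fixLine_normal (N₀ : Submodule (ZMod p) V) (hstab : ∀ σ : G, ∀ x ∈ N₀, σ • x ∈ N₀) :
    (fixLine G N₀).Normal := by
  constructor
  intro n hn g x hx
  rw [mul_smul, mul_smul, hn _ (hstab g⁻¹ x hx), smul_inv_smul]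

lemma fixQuot_normal (N₀ : Submodule (ZMod p) V) (hstab : ∀ σ : G, ∀ x ∈ N₀, σ • x ∈ N₀) :
    (fixQuot G N₀ hstab).Normal := by
  constructor
  intro n hn g x
  have h1 : (g * n * g⁻¹) • x - x = g • (n • (g⁻¹ • x) - g⁻¹ • x) := by
    rw [mul_smul, mul_smul, smul_sub, smul_inv_smul]
  rw [h1]
  exact hstab g _ (hn _)

/-- **Abstract Serre argument.** -/
theorem cofixed_of_local_global [Finite V] (hcard : Nat.card V ≤ p ^ 2)
    {Pl : Type*} (lies : Pl → ℕ → Prop) (I : Pl → Subgroup G)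
    (hex : ∀ ℓ : ℕ, ℓ.Prime → ∃ A, lies A ℓ)
    (hloc : ∀ ℓ : ℕ, ℓ.Prime → ℓ ≠ p → ∀ A, lies A ℓ → ∀ σ ∈ I A, ∀ x : V,
      σ • (σ • x - x) = σ • x - x)
    (hlocp : ∀ A, lies A p → ∃ T : Submodule (ZMod p) V,
      (∀ σ ∈ I A, ∀ x : V, σ • x - x ∈ T) ∧
      (T = ⊤ → ∀ N : Submodule (ZMod p) V, (∀ σ : G, ∀ x ∈ N, σ • x ∈ N) → N = ⊥ ∨ N = ⊤))
    (hglob : ∀ H : Subgroup G, H.Normal → (∀ σ : G, (∀ x : V, σ • x = x) → σ ∈ H) → H ≠ ⊤ →
      ∃ ℓ : ℕ, ℓ.Prime ∧ ∀ A, lies A ℓ → ∃ σ ∈ I A, σ ∉ H)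
    (hrat : ∀ x : V, (∀ σ : G, σ • x = x) → x = 0)
    (N₀ : Submodule (ZMod p) V) (hstab : ∀ σ : G, ∀ x ∈ N₀, σ • x ∈ N₀)
    (hbot : N₀ ≠ ⊥) (htop : N₀ ≠ ⊤) :
    ∀ σ : G, ∀ x : V, σ • x - x ∈ N₀ := by
  -- the two kernels
  have hH1 : ∀ σ : G, (∀ x : V, σ • x = x) → σ ∈ fixLine G N₀ := fun σ h x _ => h x
  have hH2 : ∀ σ : G, (∀ x : V, σ • x = x) → σ ∈ fixQuot G N₀ hstab := fun σ h x => by
    rw [h x, sub_self]; exact N₀.zero_mem
  -- inertia at `ℓ ≠ p` lies in both kernels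
  have hunip : ∀ ℓ : ℕ, ℓ.Prime → ℓ ≠ p → ∀ A, lies A ℓ → ∀ σ ∈ I A,
      σ ∈ fixLine G N₀ ∧ σ ∈ fixQuot G N₀ hstab := by
    intro ℓ hℓ hℓp A hA σ hσ
    exact ⟨fun x hx => unipotent_fix_line hcard N₀ hbot htop σ (hstab σ)
        (hloc ℓ hℓ hℓp A hA σ hσ) hx,
      fun x => unipotent_sub_mem_line hcard N₀ hbot htop σ (hstab σ)
        (hloc ℓ hℓ hℓp A hA σ hσ) x⟩
  -- inertia at `p` lies in one of the kernels
  have hp : ∀ A, lies A p → (I A ≤ fixLine G N₀) ∨ (I A ≤ fixQuot G N₀ hstab) := by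
    intro A hA
    obtain ⟨T, hT, hTtop⟩ := hlocp A hA
    have hTne : T ≠ ⊤ := by
      intro h
      rcases hTtop h N₀ hstab with h0 | h1
      · exact hbot h0
      · exact htop h1
    rcases inf_line_eq_bot_or_le hcard N₀ hbot htop T with h | h
    · left
      intro σ hσ x hx
      have h1 : σ • x - x ∈ T ⊓ N₀ := ⟨hT σ hσ x, N₀.sub_mem (hstab σ x hx) hx⟩
      rw [h] at h1
      exact sub_eq_zero.mp ((Submodule.mem_bot _).mp h1)
    · right
      have hTN := eq_line_of_le hcard N₀ hbot htop T hTne h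
      intro σ hσ x
      have := hT σ hσ x
      rw [hTN] at this
      exact this
  -- one of the kernels is everything
  have hmain : fixLine G N₀ = ⊤ ∨ fixQuot G N₀ hstab = ⊤ := by
    by_contra hcon
    rw [not_or] at hcon
    obtain ⟨h1, h2⟩ := hcon
    obtain ⟨ℓ₁, hℓ₁, hI₁⟩ := hglob _ (fixLine_normal N₀ hstab) hH1 h1
    obtain ⟨ℓ₂, hℓ₂, hI₂⟩ := hglob _ (fixQuot_normal N₀ hstab) hH2 h2
    have e1 : ℓ₁ = p := by
      by_contra hne
      obtain ⟨A, hA⟩ := hex ℓ₁ hℓ₁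
      obtain ⟨σ, hσ, hσn⟩ := hI₁ A hA
      exact hσn (hunip ℓ₁ hℓ₁ hne A hA σ hσ).1
    have e2 : ℓ₂ = p := by
      by_contra hne
      obtain ⟨A, hA⟩ := hex ℓ₂ hℓ₂
      obtain ⟨σ, hσ, hσn⟩ := hI₂ A hA
      exact hσn (hunip ℓ₂ hℓ₂ hne A hA σ hσ).2
    subst e1
    obtain ⟨A, hA⟩ := hex ℓ₁ hℓ₁
    rcases hp A hA with h | h
    · obtain ⟨σ, hσ, hσn⟩ := hI₁ A hA
      exact hσn (h hσ)
    · obtain ⟨σ, hσ, hσn⟩ := hI₂ A (e2 ▸ hA)
      exact hσn (h hσ)
  rcases hmain with h | h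
  · exfalso
    obtain ⟨v, hv, hv0⟩ := (Submodule.ne_bot_iff _).mp hbot
    apply hv0
    apply hrat v
    intro σ
    have : σ ∈ fixLine G N₀ := by rw [h]; exact Subgroup.mem_top σ
    exact this v hv
  · intro σ x
    have : σ ∈ fixQuot G N₀ hstab := by rw [h]; exact Subgroup.mem_top σ
    exact this x

end action

end Fermat.Agent.H25
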