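/-
P-S13 (S13), WP8: the assembly of S13 from its inputs (work packages WP3-WP7 as hypotheses).
-/
import Mathlib
import Fermat.Prelude.Def_FLTPrelim_FreyPackage
import Fermat.Prelude.Def_FLTPrelim_GaloisRep
import Fermat.Prelude.Def_FLTPrelim_Ramification
import Fermat.Prelude.Def_FLTPrelim_CofixedLine
import Fermat.Agent.H25.S13.Abstract

set_option autoImplicit false
set_option linter.style.haveILetI false
set_option linter.unusedSectionVars false

open WeierstrassCurve WeierstrassCurve.Affine WeierstrassCurve.Affine.Point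

namespace Fermat.Agent.H25

/-- **S13 from its inputs**, for any Weierstrass curve over `ℚ` and any prime `p`. -/
theorem hasCofixedLine_of_inputs (W : WeierstrassCurve ℚ) (p : ℕ) (hp : p.Prime)
    -- WP3: division polynomials
    (hnt : Nontrivial (Submodule.torsionBy ℤ (W⁄(AlgebraicClosure ℚ)).Point p))
    (hfin : Finite (Submodule.torsionBy ℤ (W⁄(AlgebraicClosure ℚ)).Point p))
    (hcard : Nat.card (Submodule.torsionBy ℤ (W⁄(AlgebraicClosure ℚ)).Point p) ≤ p ^ 2)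
    -- every prime has a place above it
    (hex : ∀ ℓ : ℕ, ℓ.Prime → ∃ A : ValuationSubring (AlgebraicClosure ℚ), A.LiesOverPrime ℓ)
    -- local at `ℓ ≠ p`: inertia is unipotent
    (hloc : ∀ ℓ : ℕ, ℓ.Prime → ℓ ≠ p → ∀ A : ValuationSubring (AlgebraicClosure ℚ),
      A.LiesOverPrime ℓ → ∀ σ ∈ A.inertiaSubgroupIn ℚ,
      ∀ x : Submodule.torsionBy ℤ (W⁄(AlgebraicClosure ℚ)).Point p,
        σ • (σ • x - x) = σ • x - x)
    -- local at `p`: inertia moves points inside a subgroup `T` (the kernel of reduction), and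
    -- `T` is not everything unless the representation is irreducible
    (hlocp : ∀ A : ValuationSubring (AlgebraicClosure ℚ), A.LiesOverPrime p →
      ∃ T : AddSubgroup (Submodule.torsionBy ℤ (W⁄(AlgebraicClosure ℚ)).Point p),
        (∀ σ ∈ A.inertiaSubgroupIn ℚ,
          ∀ x : Submodule.torsionBy ℤ (W⁄(AlgebraicClosure ℚ)).Point p, σ • x - x ∈ T) ∧
        (T = ⊤ → GaloisRepIsIrreducible (K := AlgebraicClosure ℚ) ℚ W p))
    -- global: Minkowski
    (hglob : ∀ H : Subgroup (AlgebraicClosure ℚ ≃ₐ[ℚ] AlgebraicClosure ℚ), H.Normal →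
      (∀ σ : AlgebraicClosure ℚ ≃ₐ[ℚ] AlgebraicClosure ℚ,
        (∀ x : Submodule.torsionBy ℤ (W⁄(AlgebraicClosure ℚ)).Point p, σ • x = x) → σ ∈ H) →
      H ≠ ⊤ → ∃ ℓ : ℕ, ℓ.Prime ∧ ∀ A : ValuationSubring (AlgebraicClosure ℚ),
        A.LiesOverPrime ℓ → ∃ σ ∈ A.inertiaSubgroupIn ℚ, σ ∉ H)
    -- no rational `p`-torsion
    (hrat : ∀ x : Submodule.torsionBy ℤ (W⁄(AlgebraicClosure ℚ)).Point p,
      (∀ σ : AlgebraicClosure ℚ ≃ₐ[ℚ] AlgebraicClosure ℚ, σ • x = x) → x = 0)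
    (hred : ¬ GaloisRepIsIrreducible (K := AlgebraicClosure ℚ) ℚ W p) :
    HasGaloisStableCofixedLine (K := AlgebraicClosure ℚ) ℚ W p := by
  haveI : Fact p.Prime := ⟨hp⟩
  -- a stable line
  have hex' : ∃ N₀ : Submodule (ZMod p) (Submodule.torsionBy ℤ (W⁄(AlgebraicClosure ℚ)).Point p),
      IsGaloisStable ℚ N₀ ∧ N₀ ≠ ⊥ ∧ N₀ ≠ ⊤ := by
    by_contra hcon
    apply hred
    refine ⟨hnt, fun N hN => ?_⟩
    by_contra hN'
    rw [not_or] at hN'
    exact hcon ⟨N, hN, hN'.1, hN'.2⟩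
  obtain ⟨N₀, hstab, hbot, htop⟩ := hex'
  refine ⟨N₀, hstab, hbot, htop, ?_⟩
  refine cofixed_of_local_global (G := AlgebraicClosure ℚ ≃ₐ[ℚ] AlgebraicClosure ℚ) hcard
    (fun (A : ValuationSubring (AlgebraicClosure ℚ)) ℓ => A.LiesOverPrime ℓ)
    (fun A => A.inertiaSubgroupIn ℚ) hex hloc ?_ hglob hrat N₀ hstab hbot htop
  intro A hA
  obtain ⟨T, hT, hTtop⟩ := hlocp A hA
  refine ⟨AddSubgroup.toZModSubmodule p T, hT, ?_⟩
  intro h N hN
  have hT' : T = ⊤ := by
    ext x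
    constructor
    · intro _; exact AddSubgroup.mem_top x
    · intro _
      have : x ∈ AddSubgroup.toZModSubmodule p T := by rw [h]; exact Submodule.mem_top
      exact this
  exact (hTtop hT').2 N hN

end Fermat.Agent.H25
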