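/-
P-S13 (S13), WP8: S13 for a Frey package from the outputs of the work packages.
-/
import Mathlib
import Fermat.Prelude.Def_FLTPrelim_FreyPackage
import Fermat.Prelude.Def_FLTPrelim_GaloisRep
import Fermat.Prelude.Def_FLTPrelim_Ramification
import Fermat.Prelude.Def_FLTPrelim_CofixedLine
import Fermat.Agent.H25.S13.Skeleton
import Fermat.Agent.H25.S13.Bridges
import Fermat.Agent.H81.ValFrob

set_option autoImplicit false
set_option linter.style.haveILetI false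
set_option linter.unusedSectionVars false

open WeierstrassCurve WeierstrassCurve.Affine WeierstrassCurve.Affine.Point

namespace Fermat.Agent.H25

/-- **S13 from the work packages.**  `hS05` is S05; `hnt`, `hfin`, `hcard` are WP3; `h2` is
WP5 (i)-(ii); `hlocp` is WP4 + WP6; `hG` is WP7; `hratQ` is WP5 (4). -/
theorem s13_of (P : FreyPackage)
    (hS05 : ∀ q : ℕ, q.Prime → q ≠ 2 → q ≠ P.p → P.GaloisRepUnramifiedAt q)
    (hnt : Nontrivial (Submodule.torsionBy ℤ (P.freyCurve⁄(AlgebraicClosure ℚ)).Point P.p))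
    (hfin : Finite (Submodule.torsionBy ℤ (P.freyCurve⁄(AlgebraicClosure ℚ)).Point P.p))
    (hcard : Nat.card (Submodule.torsionBy ℤ (P.freyCurve⁄(AlgebraicClosure ℚ)).Point P.p)
      ≤ P.p ^ 2)
    (h2 : ∀ A : ValuationSubring (AlgebraicClosure ℚ), A.LiesOverPrime 2 →
      ∀ σ ∈ A.inertiaSubgroupIn ℚ,
      ∀ x : Submodule.torsionBy ℤ (P.freyCurve⁄(AlgebraicClosure ℚ)).Point P.p,
        σ • (σ • x - x) = σ • x - x)
    (hlocp : ∀ A : ValuationSubring (AlgebraicClosure ℚ), A.LiesOverPrime P.p →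
      ∃ T : AddSubgroup (Submodule.torsionBy ℤ (P.freyCurve⁄(AlgebraicClosure ℚ)).Point P.p),
        (∀ σ ∈ A.inertiaSubgroupIn ℚ,
          ∀ x : Submodule.torsionBy ℤ (P.freyCurve⁄(AlgebraicClosure ℚ)).Point P.p,
            σ • x - x ∈ T) ∧
        (T = ⊤ → GaloisRepIsIrreducible (K := AlgebraicClosure ℚ) ℚ P.freyCurve P.p))
    (hG : ∀ (H : Subgroup (AlgebraicClosure ℚ ≃ₐ[ℚ] AlgebraicClosure ℚ)), H.Normal →
      ∀ (L : IntermediateField ℚ (AlgebraicClosure ℚ)), FiniteDimensional ℚ L →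
      L.fixingSubgroup ≤ H → H ≠ ⊤ →
      ∃ ℓ : ℕ, ℓ.Prime ∧ ∀ A : ValuationSubring (AlgebraicClosure ℚ),
        A.LiesOverPrime ℓ → ∃ σ ∈ A.inertiaSubgroupIn ℚ, σ ∉ H)
    (hratQ : ∀ Q : (P.freyCurve⁄ℚ).Point, (P.p : ℤ) • Q = 0 → Q = 0)
    (hred : ¬ GaloisRepIsIrreducible (K := AlgebraicClosure ℚ) ℚ P.freyCurve P.p) :
    HasGaloisStableCofixedLine (K := AlgebraicClosure ℚ) ℚ P.freyCurve P.p := by
  refine hasCofixedLine_of_inputs P.freyCurve P.p P.pp hnt hfin hcard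
    (fun ℓ hℓ => Fermat.Agent.H81.exists_valuationSubring_liesOverPrime ℓ hℓ) ?_ hlocp
    (hglob_of_finiteLevel P.freyCurve P.p hG) (hrat_of_points P.freyCurve P.p hratQ) hred
  intro ℓ hℓ hℓp A hA σ hσ x
  by_cases h : ℓ = 2
  · subst h
    exact h2 A hA σ hσ x
  · have e : σ • x = x := hS05 ℓ hℓ h hℓp A hA σ hσ x
    rw [e, sub_self, smul_zero]

end Fermat.Agent.H25
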