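/-
P-S13 (S13), final assembly: the inputs of `s13_of` which are available for the Frey curve
(S05, WP3, WP4 + WP6app, WP5 (C)); what remains is `h2` (WP5 (A)/(B)) and `hG` (WP7).
-/
import Mathlib
import Fermat.Agent.H25.S13.Final
import Fermat.Agent.H4.FreyFinal
import Fermat.Agent.H74.DivPolyFrey
import Fermat.Agent.H92.S13WP4Pack
import Fermat.Agent.H9.S13.CaseCFinal
import Fermat.Agent.H71.FreyTwo
import Fermat.Agent.H12.S13FreyTwo

set_option autoImplicit false
set_option linter.style.haveILetI false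
set_option linter.unusedSectionVars false

open WeierstrassCurve WeierstrassCurve.Affine WeierstrassCurve.Affine.Point

namespace Fermat.Agent.H25

/-- The local input at `p` (WP4 + WP6app). -/
theorem frey_hlocp (P : FreyPackage) :
    ∀ A : ValuationSubring (AlgebraicClosure ℚ), A.LiesOverPrime P.p →
      ∃ T : AddSubgroup (Submodule.torsionBy ℤ (P.freyCurve⁄(AlgebraicClosure ℚ)).Point P.p),
        (∀ σ ∈ A.inertiaSubgroupIn ℚ,
          ∀ x : Submodule.torsionBy ℤ (P.freyCurve⁄(AlgebraicClosure ℚ)).Point P.p,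
            σ • x - x ∈ T) ∧
        (T = ⊤ → GaloisRepIsIrreducible (K := AlgebraicClosure ℚ) ℚ P.freyCurve P.p) := by
  intro A hA
  have hp2 : P.p ≠ 2 := by have := P.hp5; omega
  refine ⟨(Fermat.Agent.H92.kerRedTorsion A P.freyCurve
      (Fermat.Agent.H92.frey_isIntegralAt_of_odd P P.pp hp2 A hA) P.p).toAddSubgroup, ?_, ?_⟩
  · intro σ hσ x
    exact Fermat.Agent.H92.frey_inertia_sub_mem_kerRedTorsion_at_p P A hA hσ x
  · intro hT
    by_contra hred
    obtain ⟨x, y, h, hp, hx⟩ :=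
      Fermat.Agent.H9.frey_exists_integral_torsion_of_reducible P A hA hred
    have htop : Fermat.Agent.H92.kerRedTorsion A P.freyCurve
        (Fermat.Agent.H92.frey_isIntegralAt_of_odd P P.pp hp2 A hA) P.p = ⊤ := by
      rw [eq_top_iff]
      intro z _
      have : z ∈ (Fermat.Agent.H92.kerRedTorsion A P.freyCurve
        (Fermat.Agent.H92.frey_isIntegralAt_of_odd P P.pp hp2 A hA) P.p).toAddSubgroup := by
        rw [hT]; exact AddSubgroup.mem_top z
      exact this
    exact (Fermat.Agent.H92.kerRedTorsion_eq_top_iff A P.freyCurve _ P.p).mp htop x y h hp hx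

/-- No rational `p`-torsion on the Frey curve (WP5 (C)), in the shape of `s13_of`. -/
theorem frey_hratQ (P : FreyPackage) :
    ∀ Q : (P.freyCurve⁄ℚ).Point, (P.p : ℤ) • Q = 0 → Q = 0 := by
  intro Q hQ
  have key : ∀ Q' : P.freyCurve.toAffine.Point, (P.p : ℤ) • Q' = 0 → Q' = 0 := by
    intro Q' hQ'
    cases Q' with
    | zero => rfl
    | some x y h =>
      exfalso
      have hn : P.p • (Point.some x y h : P.freyCurve.toAffine.Point) = 0 := by
        rw [← natCast_zsmul]; exact hQ'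
      obtain ⟨hx, hv⟩ := Fermat.Agent.H71.frey_rational_torsion_two P h hn
      exact Fermat.Agent.H12.frey_rational_torsion_nonnode P h hn hx hv
  exact key Q hQ

/-- **S13 from the two remaining inputs**: unipotent inertia at `2` (WP5 (A)/(B)) and the
global lemma (WP7). -/
theorem s13_of_two (P : FreyPackage)
    (h2 : ∀ A : ValuationSubring (AlgebraicClosure ℚ), A.LiesOverPrime 2 →
      ∀ σ ∈ A.inertiaSubgroupIn ℚ,
      ∀ x : Submodule.torsionBy ℤ (P.freyCurve⁄(AlgebraicClosure ℚ)).Point P.p,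
        σ • (σ • x - x) = σ • x - x)
    (hG : ∀ (H : Subgroup (AlgebraicClosure ℚ ≃ₐ[ℚ] AlgebraicClosure ℚ)), H.Normal →
      ∀ (L : IntermediateField ℚ (AlgebraicClosure ℚ)), FiniteDimensional ℚ L →
      L.fixingSubgroup ≤ H → H ≠ ⊤ →
      ∃ ℓ : ℕ, ℓ.Prime ∧ ∀ A : ValuationSubring (AlgebraicClosure ℚ),
        A.LiesOverPrime ℓ → ∃ σ ∈ A.inertiaSubgroupIn ℚ, σ ∉ H)
    (hred : ¬ GaloisRepIsIrreducible (K := AlgebraicClosure ℚ) ℚ P.freyCurve P.p) :
    HasGaloisStableCofixedLine (K := AlgebraicClosure ℚ) ℚ P.freyCurve P.p :=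
  s13_of P (fun _ hq hq2 hqp => Fermat.Agent.H4.frey_unramified P hq hq2 hqp)
    (Fermat.Agent.H74.frey_torsionBy P).1 (Fermat.Agent.H74.frey_torsionBy P).2.1
    (Fermat.Agent.H74.frey_torsionBy P).2.2 h2 (frey_hlocp P) hG (frey_hratQ P) hred

end Fermat.Agent.H25
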